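/-
M59 / box [G5], cell (G5-ord) (helper6; ruling #48, seam 4 of `M59/G5/Seams.lean`, paper proof
helper29 #5300 (ORD-chord)), directory `M59/G5/OrdQ/`.  Prefix `m59gq_`.  Mathlib only.

THE CHORD LEMMA NEAR A NODE.  `K` a field, `A : ValuationSubring K`, `W : Affine K` in
"lifted nodal form" at `(r, t)` with slopes `s₁, s₂` (`m59gq_Node`: the linear terms of the
Weierstrass polynomial `F` at `(r, t)` vanish and its quadratic part is `(η - s₁ ξ)(η - s₂ ξ)`),
so that with `u = (y - t) - s₁ (x - r)`, `w = (y - t) - s₂ (x - r)`, `c = -F(r, t)`: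

  `W.Equation x y ↔ u * w = (x - r) ^ 3 + c`                          (`m59gq_equation_iff`).

* `m59gq_chord`   : two points `z = (x, y)`, `z' = (x', y')` of `W` with `u, w ∈ 𝔪`, `|u'| = |u|`,
  `|w'| = |w|`, `x' ≠ x`, `s₁ - s₂ ∈ Aˣ`: the `x`-coordinate `X` of `z' - z` has `|X - r| ≥ 1`
  (`z' - z` does not reduce to the node).
* `m59gq_tangent` : a point `q = (x, y)` with `u, w ∈ 𝔪`, `|u| = |w|`, `y ≠ negY`: the
  `x`-coordinate `X` of `2 q` has `|X - r| ≥ 1`.
-/
import Mathlib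

set_option autoImplicit false

namespace Fermat.Agent.M59

open WeierstrassCurve WeierstrassCurve.Affine

section Val

variable {K : Type*} [Field K] (A : ValuationSubring K)

/-- the valuation lemma behind the chord lemma -/
theorem m59gq_val_eq {u w u' w' R : K} (hu : A.valuation u' = A.valuation u)
    (hw : A.valuation w' = A.valuation w)
    (hR : A.valuation R < max (A.valuation u) (A.valuation w))
    (h1 : (u' + w) * (w' + R) = (w' + u) * (w + R))
    (h2 : (w' + u) * (u' - R) = (u' + w) * (u - R)) :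
    A.valuation (u' + w) = A.valuation (w' + u) := by
  rcases le_total (A.valuation u) (A.valuation w) with h | h
  · rw [max_eq_right h] at hR
    have e1 : A.valuation (w + R) = A.valuation w := Valuation.map_add_eq_of_lt_left _ hR
    have e2 : A.valuation (w' + R) = A.valuation w := by
      rw [← hw] at hR ⊢
      exact Valuation.map_add_eq_of_lt_left _ hR
    have h3 := congrArg A.valuation h1
    rw [map_mul, map_mul, e1, e2] at h3
    have hw0 : A.valuation w ≠ 0 := ne_of_gt (lt_of_le_of_lt zero_le hR)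
    exact mul_right_cancel₀ hw0 h3
  · rw [max_eq_left h] at hR
    have e1 : A.valuation (u - R) = A.valuation u := by
      rw [sub_eq_add_neg]
      exact Valuation.map_add_eq_of_lt_left _ (by rwa [Valuation.map_neg])
    have e2 : A.valuation (u' - R) = A.valuation u := by
      rw [← hu] at hR ⊢
      rw [sub_eq_add_neg]
      exact Valuation.map_add_eq_of_lt_left _ (by rwa [Valuation.map_neg])
    have h3 := congrArg A.valuation h2
    rw [map_mul, map_mul, e1, e2] at h3
    have hu0 : A.valuation u ≠ 0 := ne_of_gt (lt_of_le_of_lt zero_le hR)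
    exact (mul_right_cancel₀ hu0 h3).symm

end Val

section Node

variable {K : Type*} [Field K]

/-- `W` is in lifted nodal form at `(r, t)` with slopes `s₁`, `s₂`: the Weierstrass polynomial is
`(η - s₁ ξ)(η - s₂ ξ) - ξ³ - c`, `ξ = x - r`, `η = y - t`. -/
structure m59gq_Node (W : Affine K) (r t s₁ s₂ : K) : Prop where
  ha1 : W.a₁ = -(s₁ + s₂)
  ha2 : W.a₂ = -(s₁ * s₂) - 3 * r
  ha3 : W.a₃ = -2 * t + (s₁ + s₂) * r
  ha4 : W.a₄ = -(s₁ + s₂) * t + 2 * s₁ * s₂ * r + 3 * r ^ 2

/-- the constant `c = -F(r, t)` -/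
def m59gq_c (W : Affine K) (r t s₁ s₂ : K) : K :=
  W.a₆ + (t ^ 2 - (s₁ + s₂) * r * t + s₁ * s₂ * r ^ 2 + r ^ 3)

/-- the linear form `(y - t) - s (x - r)` -/
def m59gq_lin (r t s x y : K) : K := (y - t) - s * (x - r)

variable {W : Affine K} {r t s₁ s₂ : K}

theorem m59gq_equation_iff (H : m59gq_Node W r t s₁ s₂) (x y : K) :
    W.Equation x y ↔
      m59gq_lin r t s₁ x y * m59gq_lin r t s₂ x y = (x - r) ^ 3 + m59gq_c W r t s₁ s₂ := by
  rw [equation_iff, H.ha1, H.ha2, H.ha3, H.ha4, m59gq_lin, m59gq_lin, m59gq_c]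
  constructor <;> intro h <;> linear_combination h

theorem m59gq_lin_negY₁ (H : m59gq_Node W r t s₁ s₂) (x y : K) :
    m59gq_lin r t s₁ x (W.negY x y) = -m59gq_lin r t s₂ x y := by
  rw [negY, H.ha1, H.ha3, m59gq_lin, m59gq_lin]
  ring

theorem m59gq_lin_negY₂ (H : m59gq_Node W r t s₁ s₂) (x y : K) :
    m59gq_lin r t s₂ x (W.negY x y) = -m59gq_lin r t s₁ x y := by
  rw [negY, H.ha1, H.ha3, m59gq_lin, m59gq_lin]
  ring

theorem m59gq_sub_eq (x y : K) :
    m59gq_lin r t s₁ x y - m59gq_lin r t s₂ x y = (s₂ - s₁) * (x - r) := by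
  rw [m59gq_lin, m59gq_lin]
  ring

theorem m59gq_addX_sub (H : m59gq_Node W r t s₁ s₂) (x₁ x₂ ℓ : K) :
    W.addX x₁ x₂ ℓ - r = (ℓ - s₁) * (ℓ - s₂) - (x₁ - r) - (x₂ - r) := by
  rw [addX, H.ha1, H.ha2]
  ring

end Node

section Chord

variable {K : Type*} [Field K] (A : ValuationSubring K) {W : Affine K} {r t s₁ s₂ : K}

/-- `|x - r| ≤ max |u| |w|` when `s₁ - s₂` is a unit -/
theorem m59gq_val_xi_le (hs : A.valuation (s₁ - s₂) = 1) (x y : K) :
    A.valuation (x - r) ≤
      max (A.valuation (m59gq_lin r t s₁ x y)) (A.valuation (m59gq_lin r t s₂ x y)) := by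
  have h := m59gq_sub_eq (r := r) (t := t) (s₁ := s₁) (s₂ := s₂) x y
  have h1 : A.valuation ((s₂ - s₁) * (x - r)) = A.valuation (x - r) := by
    rw [map_mul, ← neg_sub s₁ s₂, Valuation.map_neg, hs, one_mul]
  rw [← h1, ← h]
  exact Valuation.map_sub _ _ _

/-- **the chord lemma**: `z' - z` does not reduce to the node. -/
theorem m59gq_chord (H : m59gq_Node W r t s₁ s₂) (hs : A.valuation (s₁ - s₂) = 1)
    {x y x' y' : K} (hz : W.Equation x y) (hz' : W.Equation x' y')
    (hu1 : A.valuation (m59gq_lin r t s₁ x y) < 1) (hw1 : A.valuation (m59gq_lin r t s₂ x y) < 1)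
    (hu : A.valuation (m59gq_lin r t s₁ x' y') = A.valuation (m59gq_lin r t s₁ x y))
    (hw : A.valuation (m59gq_lin r t s₂ x' y') = A.valuation (m59gq_lin r t s₂ x y))
    (hx : x' ≠ x) :
    1 ≤ A.valuation (W.addX x' x ((y' - W.negY x y) / (x' - x)) - r) := by
  set u := m59gq_lin r t s₁ x y with hudef
  set w := m59gq_lin r t s₂ x y with hwdef
  set u' := m59gq_lin r t s₁ x' y' with hu'def
  set w' := m59gq_lin r t s₂ x' y' with hw'def
  set c := m59gq_c W r t s₁ s₂
  have e := (m59gq_equation_iff H x y).mp hz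
  have e' := (m59gq_equation_iff H x' y').mp hz'
  have hX : x' - x ≠ 0 := sub_ne_zero.mpr hx
  have hs0 : s₁ - s₂ ≠ 0 := by
    intro h; rw [h, map_zero] at hs; exact zero_ne_one hs
  have hs0' : s₂ - s₁ ≠ 0 := by
    intro h; apply hs0; rw [← neg_sub, h, neg_zero]
  have d := m59gq_sub_eq (r := r) (t := t) (s₁ := s₁) (s₂ := s₂) x y
  have d' := m59gq_sub_eq (r := r) (t := t) (s₁ := s₁) (s₂ := s₂) x' y'
  -- `M = max |u| |w|`
  set M := max (A.valuation u) (A.valuation w) with hM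
  have hM1 : M < 1 := max_lt hu1 hw1
  have hξ : A.valuation (x - r) ≤ M := m59gq_val_xi_le A hs x y
  have hξ' : A.valuation (x' - r) ≤ M := by
    have := m59gq_val_xi_le (r := r) (t := t) A hs x' y'
    rwa [← hu'def, ← hw'def, hu, hw] at this
  -- `M ≠ 0`
  have hM0 : M ≠ 0 := by
    intro h0
    have h1 : A.valuation (x - r) = 0 := le_antisymm (h0 ▸ hξ) zero_le
    have h2 : A.valuation (x' - r) = 0 := le_antisymm (h0 ▸ hξ') zero_le
    rw [Valuation.zero_iff] at h1 h2
    exact hx (by rw [sub_eq_zero.mp h2, sub_eq_zero.mp h1])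
  -- the quantities `Q₁`, `R`
  set Q₁ := (x' - r) ^ 2 + (x' - r) * (x - r) + (x - r) ^ 2 with hQ₁
  set R := Q₁ / (s₁ - s₂) with hRdef
  have hQ₁v : A.valuation Q₁ ≤ M ^ 2 := by
    have a1 : A.valuation ((x' - r) ^ 2) ≤ M ^ 2 := by
      rw [map_pow]; exact pow_le_pow_left₀ zero_le hξ' 2
    have a2 : A.valuation ((x' - r) * (x - r)) ≤ M ^ 2 := by
      rw [map_mul, pow_two]; exact mul_le_mul' hξ' hξ
    have a3 : A.valuation ((x - r) ^ 2) ≤ M ^ 2 := by
      rw [map_pow]; exact pow_le_pow_left₀ zero_le hξ 2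
    exact (Valuation.map_add_le _ ((Valuation.map_add_le _ a1 a2)) a3)
  have hM2 : M ^ 2 < M := by
    rw [pow_two]
    calc M * M < 1 * M := mul_lt_mul_of_pos_right hM1 (lt_of_le_of_ne zero_le (Ne.symm hM0))
      _ = M := one_mul M
  have hRv : A.valuation R < M := by
    rw [hRdef, map_div₀, hs, div_one]
    exact lt_of_le_of_lt hQ₁v hM2
  -- the two identities
  have hkey : u' * w' - u * w = (x' - x) * Q₁ := by
    rw [e, e', hQ₁]; ring
  have hAB : (u' + w) - (w' + u) = (s₂ - s₁) * (x' - x) := by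
    have : (u' + w) - (w' + u) = (u' - w') - (u - w) := by ring
    rw [this, d, d']; ring
  have h1 : (u' + w) * (w' + R) = (w' + u) * (w + R) := by
    have : (u' + w) * (w' + R) - (w' + u) * (w + R) =
        (u' * w' - u * w) + R * ((u' + w) - (w' + u)) := by ring
    rw [← sub_eq_zero, this, hkey, hAB, hRdef]
    field_simp
    ring
  have h2 : (w' + u) * (u' - R) = (u' + w) * (u - R) := by
    have : (w' + u) * (u' - R) - (u' + w) * (u - R) =
        (u' * w' - u * w) + R * ((u' + w) - (w' + u)) := by ring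
    rw [← sub_eq_zero, this, hkey, hAB, hRdef]
    field_simp
    ring
  have hval := m59gq_val_eq A hu hw hRv h1 h2
  -- `|x' - x| ≤ |u' + w|`
  have hXv : A.valuation (x' - x) ≤ A.valuation (u' + w) := by
    have h3 : A.valuation ((s₂ - s₁) * (x' - x)) = A.valuation (x' - x) := by
      rw [map_mul, ← neg_sub s₁ s₂, Valuation.map_neg, hs, one_mul]
    rw [← h3, ← hAB]
    refine (Valuation.map_sub _ _ _).trans ?_
    rw [hval, max_self]
  have hXv0 : A.valuation (x' - x) ≠ 0 := (Valuation.ne_zero_iff _).mpr hX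
  -- the slope
  set ℓ := (y' - W.negY x y) / (x' - x) with hℓ
  have hℓ1 : ℓ - s₁ = (u' + w) / (x' - x) := by
    have : u' + w = (y' - W.negY x y) - s₁ * (x' - x) := by
      rw [hu'def, hwdef, ← neg_neg (m59gq_lin r t s₂ x y), ← m59gq_lin_negY₁ H, m59gq_lin,
        m59gq_lin]
      ring
    rw [this, hℓ]
    field_simp
  have hℓ2 : ℓ - s₂ = (w' + u) / (x' - x) := by
    have : w' + u = (y' - W.negY x y) - s₂ * (x' - x) := by
      rw [hw'def, hudef, ← neg_neg (m59gq_lin r t s₁ x y), ← m59gq_lin_negY₂ H, m59gq_lin,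
        m59gq_lin]
      ring
    rw [this, hℓ]
    field_simp
  have hprod : 1 ≤ A.valuation ((ℓ - s₁) * (ℓ - s₂)) := by
    rw [hℓ1, hℓ2, map_mul, map_div₀, map_div₀, ← hval]
    have h4 : 1 ≤ A.valuation (u' + w) / A.valuation (x' - x) := by
      rw [le_div_iff₀ (lt_of_le_of_ne zero_le (Ne.symm hXv0)), one_mul]
      exact hXv
    calc (1 : A.ValueGroup) = 1 * 1 := (one_mul 1).symm
      _ ≤ _ := mul_le_mul' h4 h4
  rw [m59gq_addX_sub H, sub_sub]
  have hsmall : A.valuation ((x' - r) + (x - r)) < 1 :=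
    lt_of_le_of_lt (Valuation.map_add_le _ hξ' hξ) hM1
  rw [sub_eq_add_neg, Valuation.map_add_eq_of_lt_left]
  · exact hprod
  · rw [Valuation.map_neg]
    exact lt_of_lt_of_le hsmall hprod

/-- **the tangent lemma**: `2 q` does not reduce to the node when `|u| = |w|`. -/
theorem m59gq_tangent (H : m59gq_Node W r t s₁ s₂) (hs : A.valuation (s₁ - s₂) = 1)
    {x y : K}
    (hu1 : A.valuation (m59gq_lin r t s₁ x y) < 1)
    (huw : A.valuation (m59gq_lin r t s₁ x y) = A.valuation (m59gq_lin r t s₂ x y))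
    (hy : y ≠ W.negY x y) :
    1 ≤ A.valuation (W.addX x x
      ((3 * x ^ 2 + 2 * W.a₂ * x + W.a₄ - W.a₁ * y) / (y - W.negY x y)) - r) := by
  set u := m59gq_lin r t s₁ x y with hudef
  set w := m59gq_lin r t s₂ x y with hwdef
  have hsum : y - W.negY x y = u + w := by
    rw [negY, H.ha1, H.ha3, hudef, hwdef, m59gq_lin, m59gq_lin]; ring
  have hsum0 : u + w ≠ 0 := by rw [← hsum]; exact sub_ne_zero.mpr hy
  have hξ : A.valuation (x - r) ≤ A.valuation u := by
    have := m59gq_val_xi_le (r := r) (t := t) A hs x y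
    rwa [← hudef, ← hwdef, ← huw, max_self] at this
  have hu0 : A.valuation u ≠ 0 := by
    intro h0
    have h1 : u = 0 := (Valuation.zero_iff _).mp h0
    have h2 : w = 0 := (Valuation.zero_iff _).mp (by rw [← huw, h0])
    exact hsum0 (by rw [h1, h2, add_zero])
  have hupos : 0 < A.valuation u := lt_of_le_of_ne zero_le (Ne.symm hu0)
  have h3 : A.valuation (3 : K) ≤ 1 := by
    have : (3 : K) = ((3 : ℕ) : K) := by norm_num
    rw [this]
    exact (A.valuation_le_one_iff _).mpr (natCast_mem A 3)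
  have hsmall : A.valuation (3 * (x - r) ^ 2) < A.valuation u := by
    rw [map_mul, map_pow]
    calc A.valuation 3 * A.valuation (x - r) ^ 2 ≤ 1 * A.valuation u ^ 2 :=
          mul_le_mul' h3 (pow_le_pow_left₀ zero_le hξ 2)
      _ = A.valuation u * A.valuation u := by rw [one_mul, pow_two]
      _ < 1 * A.valuation u := mul_lt_mul_of_pos_right hu1 hupos
      _ = A.valuation u := one_mul _
  have hs' : A.valuation (s₂ - s₁) = 1 := by rw [← neg_sub s₁ s₂, Valuation.map_neg, hs]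
  have hn1 : A.valuation ((s₂ - s₁) * u + 3 * (x - r) ^ 2) = A.valuation u := by
    rw [Valuation.map_add_eq_of_lt_left, map_mul, hs', one_mul]
    rw [map_mul _ (s₂ - s₁) u, hs', one_mul]
    exact hsmall
  have hn2 : A.valuation ((s₁ - s₂) * w + 3 * (x - r) ^ 2) = A.valuation u := by
    rw [Valuation.map_add_eq_of_lt_left, map_mul, hs, one_mul, huw]
    rw [map_mul _ (s₁ - s₂) w, hs, one_mul, ← huw]
    exact hsmall
  set ℓ := (3 * x ^ 2 + 2 * W.a₂ * x + W.a₄ - W.a₁ * y) / (y - W.negY x y) with hℓ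
  have hℓ1 : ℓ - s₁ = ((s₂ - s₁) * u + 3 * (x - r) ^ 2) / (u + w) := by
    rw [hℓ, hsum, H.ha1, H.ha2, H.ha4, hudef, hwdef, m59gq_lin, m59gq_lin] at *
    field_simp
    ring
  have hℓ2 : ℓ - s₂ = ((s₁ - s₂) * w + 3 * (x - r) ^ 2) / (u + w) := by
    rw [hℓ, hsum, H.ha1, H.ha2, H.ha4, hudef, hwdef, m59gq_lin, m59gq_lin] at *
    field_simp
    ring
  have hsumv : A.valuation (u + w) ≤ A.valuation u := by
    refine (Valuation.map_add _ _ _).trans ?_
    rw [← huw, max_self]
  have hsumv0 : 0 < A.valuation (u + w) :=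
    lt_of_le_of_ne zero_le (Ne.symm ((Valuation.ne_zero_iff _).mpr hsum0))
  have hprod : 1 ≤ A.valuation ((ℓ - s₁) * (ℓ - s₂)) := by
    rw [hℓ1, hℓ2, map_mul, map_div₀, map_div₀, hn1, hn2]
    have h4 : 1 ≤ A.valuation u / A.valuation (u + w) := by
      rw [le_div_iff₀ hsumv0, one_mul]
      exact hsumv
    calc (1 : A.ValueGroup) = 1 * 1 := (one_mul 1).symm
      _ ≤ _ := mul_le_mul' h4 h4
  rw [m59gq_addX_sub H, sub_sub]
  have hsm : A.valuation ((x - r) + (x - r)) < 1 :=
    lt_of_le_of_lt (Valuation.map_add_le _ hξ hξ) hu1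
  rw [sub_eq_add_neg, Valuation.map_add_eq_of_lt_left]
  · exact hprod
  · rw [Valuation.map_neg]
    exact lt_of_lt_of_le hsm hprod

end Chord

end Fermat.Agent.M59
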