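/-
M59 / box [G5], cell (G5-ord) (helper6), part 2.  Prefix `m59gq_`.

THE LIFTED NODE.  `K` an algebraically closed field of characteristic zero, `A` a valuation subring
with `2 ∈ Aˣ`, `W` a Weierstrass equation with coefficients in `A`, `|Δ| < 1`, `|c₄| = 1`
(multiplicative reduction).  Then `W` is in lifted nodal form (`m59gq_Node`) at a point `(r, t)`
with slopes `s₁, s₂`, all in `A`, `s₁ - s₂ ∈ Aˣ`, `|c| < 1` (`m59gq_node_exists`); the data are
fixed by the inertia group (`m59gq_node_fixed`).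
-/
import Mathlib
import Fermat.Agent.M59.G5.OrdQ.Chord
import Fermat.Agent.S58.Mult.NodeExists
import Fermat.Agent.S05.GaloisAction

set_option autoImplicit false

namespace Fermat.Agent.M59

open WeierstrassCurve WeierstrassCurve.Affine Fermat.Agent.S58 Fermat.Agent.S05

section NodeAlg

variable {K : Type*} [Field K] {W : Affine K} {r t s₁ s₂ : K}

theorem m59gq_node_b2 (H : m59gq_Node W r t s₁ s₂) : W.b₂ + 12 * r = (s₁ - s₂) ^ 2 := by
  simp only [WeierstrassCurve.b₂]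
  rw [H.ha1, H.ha2]
  ring

theorem m59gq_node_root (H : m59gq_Node W r t s₁ s₂) : 6 * r ^ 2 + W.b₂ * r + W.b₄ = 0 := by
  simp only [WeierstrassCurve.b₂, WeierstrassCurve.b₄]
  rw [H.ha1, H.ha2, H.ha3, H.ha4]
  ring

theorem m59gq_node_c4 (H : m59gq_Node W r t s₁ s₂) : W.c₄ = ((s₁ - s₂) ^ 2) ^ 2 := by
  simp only [WeierstrassCurve.c₄, WeierstrassCurve.b₂, WeierstrassCurve.b₄]
  rw [H.ha1, H.ha2, H.ha3, H.ha4]
  ring

theorem m59gq_node_c6 (H : m59gq_Node W r t s₁ s₂) :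
    W.c₆ = -((s₁ - s₂) ^ 2) ^ 3 - 864 * m59gq_c W r t s₁ s₂ := by
  simp only [WeierstrassCurve.c₆, WeierstrassCurve.b₂, WeierstrassCurve.b₄, WeierstrassCurve.b₆,
    m59gq_c]
  rw [H.ha1, H.ha2, H.ha3, H.ha4]
  ring

theorem m59gq_node_Δ (H : m59gq_Node W r t s₁ s₂) :
    W.Δ = m59gq_c W r t s₁ s₂ * (W.c₆ + 432 * m59gq_c W r t s₁ s₂) := by
  rw [m59gq_node_c6 H]
  simp only [WeierstrassCurve.Δ, WeierstrassCurve.b₂, WeierstrassCurve.b₄, WeierstrassCurve.b₆,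
    WeierstrassCurve.b₈, m59gq_c]
  rw [H.ha1, H.ha2, H.ha3, H.ha4]
  ring

/-- the partial derivatives in the coordinates `u`, `w`, `ξ` -/
theorem m59gq_node_Fy (H : m59gq_Node W r t s₁ s₂) (x y : K) :
    2 * y + W.a₁ * x + W.a₃ = m59gq_lin r t s₁ x y + m59gq_lin r t s₂ x y := by
  rw [H.ha1, H.ha3, m59gq_lin, m59gq_lin]
  ring

theorem m59gq_node_Fx (H : m59gq_Node W r t s₁ s₂) (x y : K) :
    W.a₁ * y - (3 * x ^ 2 + 2 * W.a₂ * x + W.a₄) =
      -(s₁ * m59gq_lin r t s₂ x y) - s₂ * m59gq_lin r t s₁ x y - 3 * (x - r) ^ 2 := by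
  rw [H.ha1, H.ha2, H.ha4, m59gq_lin, m59gq_lin]
  ring

/-- Euler's relation on the curve -/
theorem m59gq_node_euler (H : m59gq_Node W r t s₁ s₂) {x y : K} (h : W.Equation x y) :
    (x - r) * (W.a₁ * y - (3 * x ^ 2 + 2 * W.a₂ * x + W.a₄)) +
      (y - t) * (2 * y + W.a₁ * x + W.a₃) = 2 * m59gq_c W r t s₁ s₂ - (x - r) ^ 3 := by
  have e := (m59gq_equation_iff H x y).mp h
  rw [m59gq_node_Fx H, m59gq_node_Fy H]
  rw [m59gq_lin, m59gq_lin] at e ⊢
  linear_combination (2 : K) * e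

end NodeAlg

section ValAux

variable {K : Type*} [Field K] (A : ValuationSubring K)

theorem m59gq_val_ofNat_le (n : ℕ) [n.AtLeastTwo] : A.valuation (OfNat.ofNat n : K) ≤ 1 :=
  (A.valuation_le_one_iff _).mpr (ofNat_mem A n)

/-- a product of an integral and a small element is small -/
theorem m59gq_small_mul {x y : K} (hx : x ∈ A) (hy : A.valuation y < 1) :
    A.valuation (x * y) < 1 := by
  rw [map_mul]
  calc A.valuation x * A.valuation y ≤ 1 * A.valuation y :=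
        mul_le_mul' ((A.valuation_le_one_iff _).mpr hx) le_rfl
    _ = A.valuation y := one_mul _
    _ < 1 := hy

theorem m59gq_val_sq_eq_one {x : K} (h : A.valuation (x ^ 2) = 1) : A.valuation x = 1 := by
  rw [map_pow] at h
  exact (pow_eq_one_iff_of_nonneg zero_le two_ne_zero).mp h

end ValAux

section Exists

variable {K : Type*} [Field K] [IsAlgClosed K] [CharZero K] (A : ValuationSubring K) (W : Affine K)

/-- **the lifted node exists** -/
theorem m59gq_node_exists (h₁ : W.a₁ ∈ A) (h₂ : W.a₂ ∈ A) (h₃ : W.a₃ ∈ A) (h₄ : W.a₄ ∈ A)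
    (h₆ : W.a₆ ∈ A) (h2 : A.valuation (2 : K) = 1) (hΔ : A.valuation W.Δ < 1)
    (hc4 : A.valuation W.c₄ = 1) :
    ∃ r t s₁ s₂ : K, m59gq_Node W r t s₁ s₂ ∧ r ∈ A ∧ t ∈ A ∧ s₁ ∈ A ∧ s₂ ∈ A ∧
      A.valuation (s₁ - s₂) = 1 ∧ A.valuation (m59gq_c W r t s₁ s₂) < 1 := by
  have hb₂ : W.b₂ ∈ A := by
    simp only [WeierstrassCurve.b₂]
    exact add_mem (pow_mem h₁ 2) (mul_mem (ofNat_mem A 4) h₂)
  have hb₄ : W.b₄ ∈ A := by
    simp only [WeierstrassCurve.b₄]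
    exact add_mem (mul_mem (ofNat_mem A 2) h₄) (mul_mem h₁ h₃)
  have hb₆ : W.b₆ ∈ A := by
    simp only [WeierstrassCurve.b₆]
    exact add_mem (pow_mem h₃ 2) (mul_mem (ofNat_mem A 4) h₆)
  have hc40 : W.c₄ ≠ 0 := by
    intro h; rw [h, map_zero] at hc4; exact zero_ne_one hc4
  have h20 : (2 : K) ≠ 0 := two_ne_zero
  -- `|c₆| = 1`
  have hrel := W.c_relation
  have hc6 : A.valuation W.c₆ = 1 := by
    apply m59gq_val_sq_eq_one
    have e : W.c₆ ^ 2 = W.c₄ ^ 3 + -(1728 * W.Δ) := by linear_combination hrel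
    rw [e, Valuation.map_add_eq_of_lt_left, map_pow, hc4, one_pow]
    rw [Valuation.map_neg, map_pow, hc4, one_pow]
    exact m59gq_small_mul A (ofNat_mem A 1728) hΔ
  have hc60 : W.c₆ ≠ 0 := by
    intro h; rw [h, map_zero] at hc6; exact zero_ne_one hc6
  -- the square root `δ` of `c₄` with `δ³ ≡ -c₆`
  obtain ⟨δ, hδ, hδ3⟩ : ∃ δ : K, δ ^ 2 = W.c₄ ∧ A.valuation (δ ^ 3 + W.c₆) < 1 := by
    obtain ⟨δ₀, hδ₀⟩ := IsAlgClosed.exists_pow_nat_eq W.c₄ (n := 2) (by norm_num)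
    have hprod : (δ₀ ^ 3 - W.c₆) * (δ₀ ^ 3 + W.c₆) = 1728 * W.Δ := by
      rw [hrel, ← hδ₀]; ring
    have hsm : A.valuation ((δ₀ ^ 3 - W.c₆) * (δ₀ ^ 3 + W.c₆)) < 1 := by
      rw [hprod]; exact m59gq_small_mul A (ofNat_mem A 1728) hΔ
    by_cases hcase : A.valuation (δ₀ ^ 3 + W.c₆) < 1
    · exact ⟨δ₀, hδ₀, hcase⟩
    · refine ⟨-δ₀, by rw [neg_sq, hδ₀], ?_⟩
      have e : (-δ₀) ^ 3 + W.c₆ = -(δ₀ ^ 3 - W.c₆) := by ring
      rw [e, Valuation.map_neg]
      by_contra hcon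
      rw [not_lt] at hcase hcon
      rw [map_mul] at hsm
      exact absurd hsm (not_lt.mpr (by
        calc (1 : A.ValueGroup) = 1 * 1 := (one_mul 1).symm
          _ ≤ _ := mul_le_mul' hcon hcase))
  have hδ1 : A.valuation δ = 1 := m59gq_val_sq_eq_one A (by rw [hδ, hc4])
  have hδ0 : δ ≠ 0 := by
    intro h; rw [h, map_zero] at hδ1; exact zero_ne_one hδ1
  have hδA : δ ∈ A := (A.valuation_le_one_iff _).mp hδ1.le
  -- `β = -c₆ / c₄`, `δ - β` small, `δ + β` a unit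
  obtain ⟨β, hβ⟩ : ∃ β : K, β = -W.c₆ / W.c₄ := ⟨_, rfl⟩
  have hβ1 : A.valuation β = 1 := by
    rw [hβ, map_div₀, Valuation.map_neg, hc6, hc4, div_one]
  have hdm : A.valuation (δ - β) < 1 := by
    have e : δ - β = (δ ^ 3 + W.c₆) / W.c₄ := by
      rw [hβ]; field_simp; rw [← hδ]; ring
    rw [e, map_div₀, hc4, div_one]; exact hδ3
  have hdp : A.valuation (δ + β) = 1 := by
    have e : δ + β = 2 * δ + -(δ - β) := by ring
    rw [e, Valuation.map_add_eq_of_lt_left, map_mul, h2, hδ1, one_mul]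
    rw [Valuation.map_neg, map_mul, h2, hδ1, one_mul]; exact hdm
  have hdp0 : δ + β ≠ 0 := by
    intro h; rw [h, map_zero] at hdp; exact zero_ne_one hdp
  -- the root `r`
  obtain ⟨r, hr⟩ : ∃ r : K, r = (δ - W.b₂) / 12 := ⟨_, rfl⟩
  have h12 : (12 : K) ≠ 0 := by norm_num
  have er : 12 * r + W.b₂ = δ := by rw [hr]; field_simp; ring
  have hrA : r ∈ A := by
    have hidB := s58m_idB W
    have e : r = s58m_n0 W / W.c₄ + 144 * W.Δ / (W.c₄ ^ 2 * (δ + β)) := by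
      have e1 : (δ - β) * (δ + β) = 1728 * W.Δ / W.c₄ ^ 2 := by
        rw [hrel, hβ]; field_simp; rw [← hδ]; ring
      have e2 : (δ - β) / 12 = 144 * W.Δ / (W.c₄ ^ 2 * (δ + β)) := by
        rw [div_eq_div_iff h12 (mul_ne_zero (pow_ne_zero 2 hc40) hdp0)]
        have := e1
        field_simp at this ⊢
        linear_combination this
      rw [← e2, hr, hβ]
      field_simp
      linear_combination (-1 : K) * hidB
    rw [e]
    refine add_mem ?_ ?_
    · apply (A.valuation_le_one_iff _).mp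
      rw [map_div₀, hc4, div_one]
      apply (A.valuation_le_one_iff _).mpr
      simp only [s58m_n0]
      exact sub_mem (mul_mem (ofNat_mem A 18) hb₆) (mul_mem hb₂ hb₄)
    · apply (A.valuation_le_one_iff _).mp
      rw [map_div₀, map_mul _ (W.c₄ ^ 2) (δ + β), map_pow, hc4, hdp, one_pow, one_mul, div_one]
      exact (m59gq_small_mul A (ofNat_mem A 144) hΔ).le
  -- `t`, `δ'`, `s₁`, `s₂`
  obtain ⟨t, ht⟩ : ∃ t : K, t = -(W.a₁ * r + W.a₃) / 2 := ⟨_, rfl⟩
  obtain ⟨δ', hδ'⟩ := IsAlgClosed.exists_pow_nat_eq δ (n := 2) (by norm_num)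
  have hδ'1 : A.valuation δ' = 1 := m59gq_val_sq_eq_one A (by rw [hδ', hδ1])
  have hδ'A : δ' ∈ A := (A.valuation_le_one_iff _).mp hδ'1.le
  have hhalf : ∀ x : K, x ∈ A → x / 2 ∈ A := by
    intro x hx
    apply (A.valuation_le_one_iff _).mp
    rw [map_div₀, h2, div_one]
    exact (A.valuation_le_one_iff _).mpr hx
  obtain ⟨s₁, hs₁⟩ : ∃ s : K, s = (-W.a₁ + δ') / 2 := ⟨_, rfl⟩
  obtain ⟨s₂, hs₂⟩ : ∃ s : K, s = (-W.a₁ - δ') / 2 := ⟨_, rfl⟩
  have hss : s₁ - s₂ = δ' := by rw [hs₁, hs₂]; field_simp; ring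
  have hroot : 6 * r ^ 2 + W.b₂ * r + W.b₄ = 0 := by
    have e : (12 * r + W.b₂) ^ 2 = W.c₄ := by rw [er, hδ]
    simp only [WeierstrassCurve.c₄] at e
    linear_combination (1 / 24 : K) * e
  have H : m59gq_Node W r t s₁ s₂ := by
    refine ⟨?_, ?_, ?_, ?_⟩
    · rw [hs₁, hs₂]; field_simp; ring
    · have e := er
      simp only [WeierstrassCurve.b₂] at e
      rw [hs₁, hs₂]
      field_simp
      linear_combination (1 : K) * e - hδ'
    · rw [hs₁, hs₂, ht]; field_simp; ring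
    · have e := er
      have e' := hroot
      simp only [WeierstrassCurve.b₂, WeierstrassCurve.b₄] at e e'
      rw [hs₁, hs₂, ht]
      field_simp
      linear_combination (2 : K) * e' - 2 * r * (e - hδ')
  refine ⟨r, t, s₁, s₂, H, hrA, ?_, ?_, ?_, ?_, ?_⟩
  · rw [ht]; exact hhalf _ (neg_mem (add_mem (mul_mem h₁ hrA) h₃))
  · rw [hs₁]; exact hhalf _ (add_mem (neg_mem h₁) hδ'A)
  · rw [hs₂]; exact hhalf _ (sub_mem (neg_mem h₁) hδ'A)
  · rw [hss, hδ'1]
  · -- `|c| < 1`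
    obtain ⟨c, hc⟩ : ∃ c : K, c = m59gq_c W r t s₁ s₂ := ⟨_, rfl⟩
    have e6 := m59gq_node_c6 H
    have eΔ := m59gq_node_Δ H
    rw [hss, hδ', ← hc] at e6
    rw [← hc] at eΔ
    have h864 : A.valuation (2 * (432 * c)) < 1 := by
      have e : 2 * (432 * c) = -(δ ^ 3 + W.c₆) := by linear_combination e6
      rw [e, Valuation.map_neg]; exact hδ3
    have h432 : A.valuation (432 * c) < 1 := by
      rwa [map_mul, h2, one_mul] at h864
    have hu : A.valuation (W.c₆ + 432 * c) = 1 := by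
      rw [Valuation.map_add_eq_of_lt_left, hc6]
      rw [hc6]; exact h432
    have := congrArg A.valuation eΔ
    rw [map_mul, hu, mul_one] at this
    rw [← hc, ← this]; exact hΔ

end Exists

section Fixed

variable {S K : Type*} [Field S] [Field K] [Algebra S K] (A : ValuationSubring K) {W : Affine K}
  {r t s₁ s₂ : K}

/-- **the inertia group fixes the lifted node and its slopes** -/
theorem m59gq_node_fixed (H : m59gq_Node W r t s₁ s₂) (h2 : A.valuation (2 : K) = 1)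
    (hr : r ∈ A) (hs : A.valuation (s₁ - s₂) = 1) {σ : K ≃ₐ[S] K}
    (hσ : σ ∈ A.inertiaSubgroupIn S) (f₁ : σ W.a₁ = W.a₁) (f₂ : σ W.a₂ = W.a₂)
    (f₃ : σ W.a₃ = W.a₃) (f₄ : σ W.a₄ = W.a₄) :
    σ r = r ∧ σ t = t ∧ σ s₁ = s₁ ∧ σ s₂ = s₂ := by
  have h20 : (2 : K) ≠ 0 := by
    intro h; rw [h, map_zero] at h2; exact zero_ne_one h2
  have hroot := m59gq_node_root H
  have hb2 := m59gq_node_b2 H
  simp only [WeierstrassCurve.b₂, WeierstrassCurve.b₄] at hroot hb2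
  -- `σ r = r`
  have hσroot := congrArg σ hroot
  simp only [map_add, map_mul, map_pow, map_zero, map_ofNat, f₁, f₂, f₃, f₄] at hσroot
  have hsmall : A.valuation (σ r - r) < 1 := inertia_sub_lt_one A hσ hr
  have hfac : (σ r - r) * ((s₁ - s₂) ^ 2 + 6 * (σ r - r)) = 0 := by
    rw [← hb2]
    linear_combination hσroot - hroot
  have hne : (s₁ - s₂) ^ 2 + 6 * (σ r - r) ≠ 0 := by
    intro h0
    have hv : A.valuation ((s₁ - s₂) ^ 2 + 6 * (σ r - r)) = 1 := by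
      rw [Valuation.map_add_eq_of_lt_left, map_pow, hs, one_pow]
      rw [map_pow, hs, one_pow]
      exact m59gq_small_mul A (ofNat_mem A 6) hsmall
    rw [h0, map_zero] at hv
    exact zero_ne_one hv
  have hr' : σ r = r := sub_eq_zero.mp ((mul_eq_zero.mp hfac).resolve_right hne)
  -- `σ t = t`
  have ht2 : 2 * t = -(W.a₃ + W.a₁ * r) := by rw [H.ha3, H.ha1]; ring
  have ht' : σ t = t := by
    have h := congrArg σ ht2
    simp only [map_add, map_mul, map_neg, map_ofNat, f₁, f₃, hr'] at h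
    rw [← ht2] at h
    exact mul_left_cancel₀ h20 h
  -- `σ (s₁ - s₂) = s₁ - s₂`
  have hd' : σ (s₁ - s₂) = s₁ - s₂ := by
    refine ga_inertia_fixes_sqrt A hσ h2 hs ?_
    rw [← hb2]
    simp only [map_add, map_mul, map_pow, map_ofNat, f₁, f₂, hr']
  have hs1 : 2 * s₁ = -W.a₁ + (s₁ - s₂) := by rw [H.ha1]; ring
  have hs₁' : σ s₁ = s₁ := by
    have h := congrArg σ hs1
    rw [map_add, map_mul, map_neg, map_ofNat, f₁, hd', ← hs1] at h
    exact mul_left_cancel₀ h20 h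
  refine ⟨hr', ht', hs₁', ?_⟩
  have : s₂ = s₁ - (s₁ - s₂) := by ring
  rw [this, map_sub, hd', hs₁']

end Fixed

end Fermat.Agent.M59
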