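/-
M59 / box [G5], cell (G5-ord) (helper6), part 3.  Prefix `m59gq_`.

THE ZERO COMPONENT NEAR A LIFTED NODE, AND INERTIA.
* `m59gq_mem_E0`            : a point `(x, y)` with `|x - r| ≥ 1` lies in `E0` (it reduces to a
  nonsingular point, or to `0`);
* `m59gq_inertia_sub_mem`   : **(c)** for `σ` in the inertia group and EVERY point `z`,
  `σ • z - z ∈ E0` (chord and tangent lemmas of `Chord.lean`).
-/
import Mathlib
import Fermat.Agent.M59.G5.OrdQ.Node
import Fermat.Agent.S58.Mult.Inertia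
import Fermat.Agent.S58.Frob.Residue

set_option autoImplicit false

namespace Fermat.Agent.M59

open WeierstrassCurve WeierstrassCurve.Affine WeierstrassCurve.Affine.Point IsLocalRing
  Fermat.Agent.S58 Fermat.Agent.S05

section Crit

variable {F : Type*} [Field F] [DecidableEq F] {A : ValuationSubring F}
  [DecidableEq (ResidueField A)] {W : Affine F} {Wk : Affine (ResidueField A)}

/-- **a point away from the lifted node lies in `E0`** -/
theorem m59gq_mem_E0 (hM : s58r_Model A W Wk) {r t s₁ s₂ : F} (H : m59gq_Node W r t s₁ s₂)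
    (hr : r ∈ A) (ht : t ∈ A) (hc : A.valuation (m59gq_c W r t s₁ s₂) < 1)
    {x y : F} (h : W.Nonsingular x y) (hx : 1 ≤ A.valuation (x - r)) :
    Point.some x y h ∈ s58r_E0 hM := by
  obtain ⟨WA, rfl, rfl⟩ := id hM
  by_cases hxA : x ∈ A
  · have hyA : y ∈ A := s58r_y_mem A WA hxA h.1
    have he := s58r_equation_residue A WA (a := ⟨x, hxA⟩) (b := ⟨y, hyA⟩) h.1
    have hn : (WA.map (residue A)).toAffine.Nonsingular (residue A ⟨x, hxA⟩)
        (residue A ⟨y, hyA⟩) := by
      rw [nonsingular_iff]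
      refine ⟨he, ?_⟩
      by_contra hcon
      push Not at hcon
      obtain ⟨h1, h2⟩ := hcon
      -- `F_x` and `F_y` are small
      have hxs : A.subtype ⟨x, hxA⟩ = x := rfl
      have hys : A.subtype ⟨y, hyA⟩ = y := rfl
      simp only [map_a₁, map_a₂, map_a₃, map_a₄] at h1 h2
      have hFx : A.valuation ((WA.map A.subtype).toAffine.a₁ * y -
          (3 * x ^ 2 + 2 * (WA.map A.subtype).toAffine.a₂ * x +
            (WA.map A.subtype).toAffine.a₄)) < 1 := by
        have e : residue A (WA.a₁ * ⟨y, hyA⟩ -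
            (3 * ⟨x, hxA⟩ ^ 2 + 2 * WA.a₂ * ⟨x, hxA⟩ + WA.a₄)) = 0 := by
          simp only [map_sub, map_add, map_mul, map_pow, map_ofNat]
          rw [h1, sub_self]
        rw [residue_eq_zero_iff, A.valuation_lt_one_iff] at e
        have e' : A.valuation (A.subtype (WA.a₁ * ⟨y, hyA⟩ -
            (3 * ⟨x, hxA⟩ ^ 2 + 2 * WA.a₂ * ⟨x, hxA⟩ + WA.a₄))) < 1 := e
        simp only [map_sub, map_add, map_mul, map_pow, map_ofNat, hxs, hys] at e'
        simpa only [map_a₁, map_a₂, map_a₄] using e'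
      have hFy : A.valuation (2 * y + (WA.map A.subtype).toAffine.a₁ * x +
          (WA.map A.subtype).toAffine.a₃) < 1 := by
        have e : residue A (2 * ⟨y, hyA⟩ + WA.a₁ * ⟨x, hxA⟩ + WA.a₃) = 0 := by
          simp only [map_add, map_mul, map_ofNat]
          linear_combination h2
        rw [residue_eq_zero_iff, A.valuation_lt_one_iff] at e
        have e' : A.valuation (A.subtype (2 * ⟨y, hyA⟩ + WA.a₁ * ⟨x, hxA⟩ + WA.a₃)) < 1 := e
        simp only [map_add, map_mul, map_ofNat, hxs, hys] at e'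
        simpa only [map_a₁, map_a₃] using e'
      have hxr : x - r ∈ A := sub_mem hxA hr
      have hyt : y - t ∈ A := sub_mem hyA ht
      have hxr1 : A.valuation (x - r) = 1 :=
        le_antisymm ((A.valuation_le_one_iff _).mpr hxr) hx
      have hE := m59gq_node_euler H h.1
      have hL : A.valuation ((x - r) * ((WA.map A.subtype).toAffine.a₁ * y -
          (3 * x ^ 2 + 2 * (WA.map A.subtype).toAffine.a₂ * x +
            (WA.map A.subtype).toAffine.a₄)) +
          (y - t) * (2 * y + (WA.map A.subtype).toAffine.a₁ * x +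
            (WA.map A.subtype).toAffine.a₃)) < 1 :=
        Valuation.map_add_lt _ (m59gq_small_mul A hxr hFx) (m59gq_small_mul A hyt hFy)
      have hR : A.valuation (2 * m59gq_c (WA.map A.subtype).toAffine r t s₁ s₂ - (x - r) ^ 3)
          = 1 := by
        rw [sub_eq_add_neg, add_comm, Valuation.map_add_eq_of_lt_left, Valuation.map_neg, map_pow,
          hxr1, one_pow]
        rw [Valuation.map_neg, map_pow, hxr1, one_pow]
        exact m59gq_small_mul A (ofNat_mem A 2) hc
      rw [hE, hR] at hL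
      exact lt_irrefl _ hL
    exact ⟨_, s58r_RedTo.aff ⟨x, hxA⟩ ⟨y, hyA⟩ h hn⟩
  · exact ⟨0, s58r_RedTo.inf h hxA⟩

end Crit

section Inertia

variable {R₀ S K : Type*} [CommRing R₀] [Field S] [Field K] [DecidableEq K] [Algebra R₀ S]
  [Algebra R₀ K] [Algebra S K] [IsScalarTower R₀ S K] {W' : Affine R₀} {A : ValuationSubring K}
  [DecidableEq (ResidueField A)] {Wk : Affine (ResidueField A)}

omit [DecidableEq K] in
theorem m59gq_lin_apply {σ : K ≃ₐ[S] K} {r t s : K} (hr : σ r = r) (ht : σ t = t) (hs : σ s = s)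
    (x y : K) : m59gq_lin r t s (σ x) (σ y) = σ (m59gq_lin r t s x y) := by
  simp only [m59gq_lin, map_sub, map_mul, hr, ht, hs]

omit [DecidableEq K] in
/-- the coefficients of the base-changed curve are fixed by `Gal(K/S)` -/
theorem m59gq_coeff_fixed (σ : K ≃ₐ[S] K) :
    σ (W'⁄K).a₁ = (W'⁄K).a₁ ∧ σ (W'⁄K).a₂ = (W'⁄K).a₂ ∧ σ (W'⁄K).a₃ = (W'⁄K).a₃ ∧
      σ (W'⁄K).a₄ = (W'⁄K).a₄ := by
  have key : ∀ a : R₀, σ (algebraMap R₀ K a) = algebraMap R₀ K a := fun a => by
    rw [IsScalarTower.algebraMap_apply R₀ S K, σ.commutes]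
  exact ⟨key _, key _, key _, key _⟩

/-- **the decomposition group preserves `E0`** (the reduced curve is defined over the image of
`R₀`, which the decomposition group fixes) -/
theorem m59gq_decomp_smul_mem_E0 (hM : s58r_Model A (W'⁄K) Wk) {σ : K ≃ₐ[S] K}
    (hσ : σ ∈ A.decompositionSubgroup S) {P : (W'⁄K).Point} (hP : P ∈ s58r_E0 hM) :
    σ • P ∈ s58r_E0 hM := by
  obtain ⟨R, hR⟩ := hP
  obtain ⟨WA, hWA, hWk⟩ := id hM
  subst hWk
  cases hR with
  | zero =>
    rw [ga_smul_zero]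
    exact (s58r_E0 hM).zero_mem
  | inf h₁ hx₁ =>
    rw [S05.smul_some σ h₁]
    exact ⟨0, s58r_RedTo.inf _ (s58fa_not_mem_of_decomp hσ hx₁)⟩
  | aff a b h₁ h₁' =>
    rw [S05.smul_some σ h₁]
    set τ : A.decompositionSubgroup S := ⟨σ, hσ⟩ with hτ
    have hfix : ∀ c : A, (∃ c₀ : R₀, (c : K) = algebraMap R₀ K c₀) → τ • c = c := by
      rintro c ⟨c₀, hc₀⟩
      apply Subtype.ext
      show σ (c : K) = c
      rw [hc₀, IsScalarTower.algebraMap_apply R₀ S K, σ.commutes]
    have hcoef : ∀ c : A, (∃ c₀ : R₀, (c : K) = algebraMap R₀ K c₀) →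
        τ • residue A c = residue A c := by
      intro c hc
      rw [← ResidueField.residue_smul, hfix c hc]
    set f : ResidueField A →+* ResidueField A :=
      MulSemiringAction.toRingHom (A.decompositionSubgroup S) (ResidueField A) τ with hf
    have hfa : ∀ z : ResidueField A, f z = τ • z := fun z => rfl
    have h1 : (WA.map A.subtype).a₁ = (W'⁄K).a₁ := by rw [hWA]
    have h2 : (WA.map A.subtype).a₂ = (W'⁄K).a₂ := by rw [hWA]
    have h3 : (WA.map A.subtype).a₃ = (W'⁄K).a₃ := by rw [hWA]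
    have h4 : (WA.map A.subtype).a₄ = (W'⁄K).a₄ := by rw [hWA]
    have h6 : (WA.map A.subtype).a₆ = (W'⁄K).a₆ := by rw [hWA]
    have hmap : (WA.map (residue A)).toAffine.map f = (WA.map (residue A)).toAffine := by
      apply WeierstrassCurve.ext
      · rw [map_a₁, map_a₁, hfa]; exact hcoef _ ⟨W'.a₁, h1⟩
      · rw [map_a₂, map_a₂, hfa]; exact hcoef _ ⟨W'.a₂, h2⟩
      · rw [map_a₃, map_a₃, hfa]; exact hcoef _ ⟨W'.a₃, h3⟩
      · rw [map_a₄, map_a₄, hfa]; exact hcoef _ ⟨W'.a₄, h4⟩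
      · rw [map_a₆, map_a₆, hfa]; exact hcoef _ ⟨W'.a₆, h6⟩
    have hn := (map_nonsingular (WA.map (residue A)).toAffine (f := f) f.injective
      (residue A a) (residue A b)).mpr h₁'
    rw [hmap, hfa, hfa, ← ResidueField.residue_smul, ← ResidueField.residue_smul] at hn
    exact ⟨_, s58r_RedTo.aff (τ • a) (τ • b) _ hn⟩

variable [Algebra.IsAlgebraic S K]

/-- **(c)** for `σ` in the inertia group and every point `z`: `σ • z - z ∈ E0`. -/
theorem m59gq_inertia_sub_mem (hM : s58r_Model A (W'⁄K) Wk) {r t s₁ s₂ : K}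
    (H : m59gq_Node (W'⁄K) r t s₁ s₂) (hr : r ∈ A) (ht : t ∈ A)
    (hs : A.valuation (s₁ - s₂) = 1) (hc : A.valuation (m59gq_c (W'⁄K) r t s₁ s₂) < 1)
    (h2 : A.valuation (2 : K) = 1) {σ : K ≃ₐ[S] K} (hσ : σ ∈ A.inertiaSubgroupIn S)
    (z : (W'⁄K).Point) : σ • z - z ∈ s58r_E0 hM := by
  by_cases hz : z ∈ s58r_E0 hM
  · exact (s58r_E0 hM).sub_mem (s58m_smul_mem_E0 hM hσ ⟨z, hz⟩) hz
  rcases z with _ | ⟨x, y, h⟩
  · exact absurd (s58r_E0 hM).zero_mem hz
  have hxr : A.valuation (x - r) < 1 := by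
    by_contra hcon
    exact hz (m59gq_mem_E0 hM H hr ht hc h (not_lt.mp hcon))
  obtain ⟨f₁, f₂, f₃, f₄⟩ := m59gq_coeff_fixed (W' := W') σ
  obtain ⟨gr, gt, g₁, g₂⟩ := m59gq_node_fixed A H h2 hr hs hσ f₁ f₂ f₃ f₄
  obtain ⟨u, hu⟩ : ∃ u : K, u = m59gq_lin r t s₁ x y := ⟨_, rfl⟩
  obtain ⟨w, hw⟩ : ∃ w : K, w = m59gq_lin r t s₂ x y := ⟨_, rfl⟩
  have e := (m59gq_equation_iff H x y).mp h.1
  rw [← hu, ← hw] at e
  have huw : A.valuation (u * w) < 1 := by
    rw [e]
    refine Valuation.map_add_lt _ ?_ hc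
    rw [map_pow]
    exact pow_lt_one₀ zero_le hxr three_ne_zero
  have hd : A.valuation (u - w) < 1 := by
    rw [hu, hw, m59gq_sub_eq, map_mul, ← neg_sub s₁ s₂, Valuation.map_neg, hs, one_mul]
    exact hxr
  have hu1 : A.valuation u < 1 := by
    by_contra hcon
    rw [not_lt] at hcon
    have hwu : A.valuation w = A.valuation u := by
      have e' : w = u + -(u - w) := by ring
      rw [e', Valuation.map_add_eq_of_lt_left]
      rw [Valuation.map_neg]
      exact lt_of_lt_of_le hd hcon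
    rw [map_mul, hwu] at huw
    exact absurd huw (not_lt.mpr (by
      calc (1 : A.ValueGroup) = 1 * 1 := (one_mul 1).symm
        _ ≤ _ := mul_le_mul' hcon hcon))
  have hw1 : A.valuation w < 1 := by
    have e' : w = u + -(u - w) := by ring
    rw [e']
    exact Valuation.map_add_lt _ hu1 (by rw [Valuation.map_neg]; exact hd)
  -- the conjugate point
  have hσh : (W'⁄K).Nonsingular (σ x) (σ y) :=
    (W'.baseChange_nonsingular (f := σ.toAlgHom) σ.injective x y).mpr h
  have hσz : σ • (Point.some x y h : (W'⁄K).Point) = Point.some (σ x) (σ y) hσh :=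
    S05.smul_some σ h
  rw [hσz]
  have hu' : A.valuation (m59gq_lin r t s₁ (σ x) (σ y)) = A.valuation u := by
    rw [m59gq_lin_apply gr gt g₁, inertia_valuation_apply A hσ, hu]
  have hw' : A.valuation (m59gq_lin r t s₂ (σ x) (σ y)) = A.valuation w := by
    rw [m59gq_lin_apply gr gt g₂, inertia_valuation_apply A hσ, hw]
  by_cases hx : σ x = x
  · by_cases hy : σ y = y
    · -- `σ z = z`
      rw [s58r_some_congr hx hy hσh h, sub_self]
      exact (s58r_E0 hM).zero_mem
    · -- `σ z = -z`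
      have hyn : σ y = (W'⁄K).negY x y := (Y_eq_of_X_eq hσh.1 h.1 hx).resolve_left hy
      have hyne : y ≠ (W'⁄K).negY x y := fun h' => hy (by rw [hyn, ← h'])
      have hneg : (Point.some (σ x) (σ y) hσh : (W'⁄K).Point) = -Point.some x y h := by
        rw [Point.neg_some]
        exact s58r_some_congr hx hyn _ _
      have huw' : A.valuation u = A.valuation w := by
        rw [← hu', hx, hyn, m59gq_lin_negY₁ H, Valuation.map_neg, hw]
      rw [hneg, ← neg_add', ]
      refine (s58r_E0 hM).neg_mem ?_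
      rw [Point.add_self_of_Y_ne hyne]
      refine m59gq_mem_E0 hM H hr ht hc _ ?_
      rw [slope_of_Y_ne rfl hyne]
      rw [hu] at hu1 huw'
      rw [hw] at huw'
      exact m59gq_tangent A H hs hu1 huw' hyne
  · -- the chord
    rw [sub_eq_add_neg, Point.neg_some, Point.add_of_X_ne hx]
    refine m59gq_mem_E0 hM H hr ht hc _ ?_
    rw [slope_of_X_ne hx]
    rw [hu] at hu1 hu'
    rw [hw] at hw1 hw'
    exact m59gq_chord A H hs h.1 hσh.1 hu1 hw1 hu' hw' hx

end Inertia

end Fermat.Agent.M59
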