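/-
M59 / box [G5], cell (G5-ord) (helper6), part 4.  Prefix `m59gq_`.

THE NODAL CUBIC IN CHARACTERISTIC `p` HAS NO `p`-TORSION.  The parametrisation
`s58m_phi : kˣ → W.Point` of main (S58/Mult/NodalGroup.lean) is surjective (`m59gq_phi_surj`:
`t = (Y - αX) / (Y - βX)`), and `kˣ` has no `p`-torsion in characteristic `p`.
-/
import Mathlib
import Fermat.Agent.S58.Mult.NodalGroup

set_option autoImplicit false

namespace Fermat.Agent.M59

open WeierstrassCurve WeierstrassCurve.Affine Fermat.Agent.S58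

variable {k : Type*} [Field k] [DecidableEq k] {W : Affine k} {x0 y0 α β : k}
  (H : s58m_Nodal W x0 y0 α β)

/-- the parametrisation of the nonsingular points of a nodal cubic is surjective -/
theorem m59gq_phi_surj (P : W.Point) : ∃ t : kˣ, s58m_phi H t = P := by
  rcases P with _ | ⟨x, y, h⟩
  · exact ⟨1, s58m_phi_one H⟩
  obtain ⟨X, hX⟩ : ∃ X : k, X = x - x0 := ⟨_, rfl⟩
  obtain ⟨Y, hY⟩ : ∃ Y : k, Y = y - y0 := ⟨_, rfl⟩
  have hx : x = x0 + X := by rw [hX]; ring
  have hy : y = y0 + Y := by rw [hY]; ring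
  have he : (Y - α * X) * (Y - β * X) = X ^ 3 := by
    have := h.1
    rw [equation_iff, H.ha1, H.ha2, H.ha3, H.ha4, H.ha6, hx, hy] at this
    linear_combination this
  have hX0 : X ≠ 0 := by
    intro h0
    have hn := h
    rw [nonsingular_iff] at hn
    rw [h0] at he
    have hY0 : Y = 0 := by
      have : Y * Y = 0 := by linear_combination he
      exact mul_self_eq_zero.mp this
    rcases hn.2 with h1 | h1
    · apply h1
      rw [H.ha1, H.ha2, H.ha4, hx, hy, h0, hY0]; ring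
    · apply h1
      rw [H.ha1, H.ha3, hx, hy, h0, hY0]; ring
  obtain ⟨U, hUd⟩ : ∃ U : k, U = Y - α * X := ⟨_, rfl⟩
  obtain ⟨V, hVd⟩ : ∃ V : k, V = Y - β * X := ⟨_, rfl⟩
  rw [← hUd, ← hVd] at he
  have hUV : U * V ≠ 0 := by rw [he]; exact pow_ne_zero 3 hX0
  have hU : U ≠ 0 := left_ne_zero_of_mul hUV
  have hV : V ≠ 0 := right_ne_zero_of_mul hUV
  have hab : α - β ≠ 0 := sub_ne_zero.mpr H.hne
  have hD : (α - β) * X ≠ 0 := mul_ne_zero hab hX0
  have hVU : V - U = (α - β) * X := by rw [hUd, hVd]; ring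
  have hYe : α * V - β * U = (α - β) * Y := by rw [hUd, hVd]; ring
  have ht0 : U / V ≠ 0 := div_ne_zero hU hV
  have ht1 : U / V ≠ 1 := by
    intro h1
    rw [div_eq_one_iff_eq hV] at h1
    apply hD
    rw [← hVU, h1, sub_self]
  refine ⟨Units.mk0 _ ht0, ?_⟩
  have ht1' : ((Units.mk0 _ ht0 : kˣ) : k) ≠ 1 := by rw [Units.val_mk0]; exact ht1
  rw [s58m_phi_of_ne H ht1']
  have h1 : 1 - U / V = (α - β) * X / V := by rw [one_sub_div hV, hVU]
  apply s58m_some_congr
  · rw [Units.val_mk0, s58m_px, hx, h1]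
    field_simp
    linear_combination he
  · rw [Units.val_mk0, s58m_py, hy, h1]
    have h3 : α - U / V * β = (α - β) * Y / V := by
      rw [← hYe]; field_simp
    rw [h3]
    field_simp
    linear_combination Y * he

include H in
/-- **a nodal cubic in characteristic `p` has no `p`-torsion** -/
theorem m59gq_nodal_no_ptors (p : ℕ) [Fact p.Prime] [CharP k p] (P : W.Point)
    (hP : p • P = 0) : P = 0 := by
  obtain ⟨t, rfl⟩ := m59gq_phi_surj H P
  rw [← s58m_phi_pow, s58m_phi_eq_zero_iff] at hP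
  rw [s58m_phi_eq_zero_iff]
  have h1 : ((t : k) - 1) ^ p = 0 := by
    rw [sub_pow_char, ← Units.val_pow_eq_pow_val, hP, Units.val_one, one_pow, sub_self]
  exact Units.ext (sub_eq_zero.mp (pow_eq_zero_iff (Fact.out : p.Prime).ne_zero |>.mp h1))

end Fermat.Agent.M59
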