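/-
M59 / box [G5], cell (G5-ord) (helper6), part 5.  Prefix `m59gq_`.

THE LINE.  `W / ℤ` semistable, `p` odd, `p ∣ Δ`, `A` a place of `ℚ̄` over `p`,
`E0 = s58r_E0 (s58m_model W A)`, `(ρ_W, π)` a Tate datum:
* `m59gq_inertia_sub`        : `σ • z - z ∈ E0` for `σ` in the inertia group, EVERY `z`;
* `m59gq_exists_tors_not_E0` : some `p`-torsion point is not in `E0`;
* `m59gq_L`                  : the submodule `{v | ∀ n, π n v ∈ E0}` of `T_p W`;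
* `m59gq_line`               : it is saturated, `≠ ⊤`, `≠ ⊥` (if `det ρ_W` is nontrivial on
  inertia), stable under the decomposition group, and inertia acts trivially on the quotient.
-/
import Mathlib
import Fermat.Agent.M59.G5.OrdQ.E0
import Fermat.Agent.M59.G5.OrdQ.Nodal
import Fermat.Agent.S58.Mult.ZeroComp
import Fermat.Agent.S58.Top.Glue
import Fermat.Agent.S44.LocP.Line
import Fermat.Agent.MZ.J.E1Unit

set_option autoImplicit false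

namespace Fermat.Agent.M59

open WeierstrassCurve WeierstrassCurve.Affine WeierstrassCurve.Affine.Point IsLocalRing
  Fermat.Agent.S58 Fermat.Agent.S05 Fermat.Agent.S13 Fermat.Agent.S44 Fermat.Agent.MZ

section NodeId

variable {K : Type*} [Field K] {W : Affine K} {r t s₁ s₂ : K}

theorem m59gq_node_psi2Sq (H : m59gq_Node W r t s₁ s₂) :
    psi2Sq W r = 4 * m59gq_c W r t s₁ s₂ := by
  simp only [psi2Sq, WeierstrassCurve.b₂, WeierstrassCurve.b₄, WeierstrassCurve.b₆, m59gq_c]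
  rw [H.ha1, H.ha2, H.ha3, H.ha4]
  ring

theorem m59gq_node_dupNum (H : m59gq_Node W r t s₁ s₂) :
    dupNum W r = m59gq_c W r t s₁ s₂ * (4 * r - (s₁ - s₂) ^ 2) := by
  simp only [dupNum, WeierstrassCurve.b₄, WeierstrassCurve.b₆, WeierstrassCurve.b₈, m59gq_c]
  rw [H.ha1, H.ha2, H.ha3, H.ha4]
  ring

end NodeId

section Concrete

variable (W : WeierstrassCurve ℤ) {p : ℕ} (A : ValuationSubring s58_Qb)

theorem m59gq_curve_c₄ : ((s58_WQ W)⁄s58_Qb).c₄ = ((W.c₄ : ℤ) : s58_Qb) := by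
  show ((W.map (Int.castRingHom ℚ)).map (algebraMap ℚ s58_Qb)).c₄ = _
  rw [WeierstrassCurve.map_c₄, WeierstrassCurve.map_c₄]
  simp

variable {W A}

/-- **the lifted node of `W` at a place of multiplicative reduction** -/
theorem m59gq_nodeData (hp : p.Prime) (hp2 : p ≠ 2) (hA : A.LiesOverPrime p)
    (hbad : (p : ℤ) ∣ W.Δ) (hc4 : ¬ (p : ℤ) ∣ W.c₄) :
    ∃ r t s₁ s₂ : s58_Qb, m59gq_Node ((s58_WQ W)⁄s58_Qb) r t s₁ s₂ ∧ r ∈ A ∧ t ∈ A ∧
      A.valuation (s₁ - s₂) = 1 ∧ A.valuation (m59gq_c ((s58_WQ W)⁄s58_Qb) r t s₁ s₂) < 1 ∧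
      A.valuation (2 : s58_Qb) = 1 := by
  obtain ⟨WA, hWA, -⟩ := s58m_model W A
  obtain ⟨h₁, h₂, h₃, h₄, h₆⟩ := s58r_coeff_mem A WA
  rw [hWA] at h₁ h₂ h₃ h₄ h₆
  have h2 : A.valuation (2 : s58_Qb) = 1 := by
    have := (intVal_eq_one_iff A hA hp (2 : ℤ)).mpr (fun h => hp2 (by
      have h' : p ∣ 2 := by exact_mod_cast h
      exact (Nat.prime_dvd_prime_iff_eq hp Nat.prime_two).mp h'))
    simpa using this
  have hΔ : A.valuation ((s58_WQ W)⁄s58_Qb).Δ < 1 := by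
    rw [s58m_curve_Δ]; exact (intVal_lt_one_iff A hA hp _).mpr hbad
  have hc : A.valuation ((s58_WQ W)⁄s58_Qb).c₄ = 1 := by
    rw [m59gq_curve_c₄]; exact (intVal_eq_one_iff A hA hp _).mpr hc4
  obtain ⟨r, t, s₁, s₂, H, hr, ht, -, -, hs, hcc⟩ :=
    m59gq_node_exists A ((s58_WQ W)⁄s58_Qb) h₁ h₂ h₃ h₄ h₆ h2 hΔ hc
  exact ⟨r, t, s₁, s₂, H, hr, ht, hs, hcc, h2⟩

variable [DecidableEq (ResidueField A)]

/-- **(c)**: `σ • z - z ∈ E0` for `σ` in the inertia group and every point `z` -/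
theorem m59gq_inertia_sub (hp : p.Prime) (hp2 : p ≠ 2) (hA : A.LiesOverPrime p)
    (hbad : (p : ℤ) ∣ W.Δ) (hc4 : ¬ (p : ℤ) ∣ W.c₄) {σ : s58_G}
    (hσ : σ ∈ A.inertiaSubgroupIn ℚ) (z : s58_E W) :
    σ • z - z ∈ s58r_E0 (s58m_model W A) := by
  obtain ⟨r, t, s₁, s₂, H, hr, ht, hs, hcc, h2⟩ := m59gq_nodeData hp hp2 hA hbad hc4
  have _ : Algebra.IsAlgebraic ℚ s58_Qb := AlgebraicClosure.isAlgebraic ℚ
  exact m59gq_inertia_sub_mem (s58m_model W A) H hr ht hs hcc h2 hσ z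

/-- **some `p`-torsion point is not in `E0`** -/
theorem m59gq_exists_tors_not_E0 (hp : p.Prime) (hp2 : p ≠ 2) (hA : A.LiesOverPrime p)
    (hΔ0 : W.Δ ≠ 0) (hbad : (p : ℤ) ∣ W.Δ) (hc4 : ¬ (p : ℤ) ∣ W.c₄) :
    ∃ T : s58_E W, p • T = 0 ∧ T ∉ s58r_E0 (s58m_model W A) := by
  have hM := s58m_model W A
  obtain ⟨r, t, s₁, s₂, H, hr, ht, hs, hcc, h2⟩ := m59gq_nodeData hp hp2 hA hbad hc4
  obtain ⟨hb₂, hb₄, hb₆, hb₈⟩ := s58r_b_mem hM
  have hΔK : ((s58_WQ W)⁄s58_Qb).Δ ≠ 0 := s58top_Δ_ne_zero hΔ0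
  obtain ⟨m, hm⟩ := hp.odd_of_ne_two hp2
  have hm1 : 1 ≤ m := by
    have := hp.two_le
    omega
  have hunit := mzj_eu_main W hΔ0 hp (fun h => hc4 h.1) A hA
  have hroot : A.valuation (psi2Sq ((s58_WQ W)⁄s58_Qb) r) < 1 := by
    rw [m59gq_node_psi2Sq H]
    exact m59gq_small_mul A (ofNat_mem A 4) hcc
  have hdup : A.valuation (dupNum ((s58_WQ W)⁄s58_Qb) r) < 1 := by
    rw [m59gq_node_dupNum H, mul_comm]
    refine m59gq_small_mul A (sub_mem (mul_mem (ofNat_mem A 4) hr) ?_) hcc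
    apply (A.valuation_le_one_iff _).mp
    rw [map_pow, hs, one_pow]
  rw [hm] at hunit
  obtain ⟨T, hT, -, hTk⟩ := s44a_exists_tors_not_inKerRed A ((s58_WQ W)⁄s58_Qb) hΔK hb₂ hb₄ hb₆
    hb₈ m hm1 hr hroot hdup hunit
  rw [← hm] at hT
  refine ⟨T, hT, fun hT0 => hTk ?_⟩
  -- the reduction of `T` is `p`-torsion on the nodal cubic, hence `0`
  have : IsAlgClosed (ResidueField A) := s58m_residue_isAlgClosed A
  have hΔk : (s58m_Wk W A).Δ = 0 := by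
    rw [s58m_Wk_Δ]; exact (s58m_residue_intCast_eq_zero_iff hA hp _).mpr hbad
  have hc4k : (s58m_Wk W A).c₄ ≠ 0 := by
    rw [s58m_Wk_c₄]; exact fun h => hc4 ((s58m_residue_intCast_eq_zero_iff hA hp _).mp h)
  obtain ⟨x0, y0, α, β, HN⟩ := s58m_nodal_exists (s58m_Wk W A) hΔk hc4k
  have : Fact p.Prime := ⟨hp⟩
  have : CharP (ResidueField A) p := by
    rw [CharP.charP_iff_prime_eq_zero hp]
    have := (s58m_residue_intCast_eq_zero_iff hA hp (p : ℤ)).mpr dvd_rfl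
    rwa [Int.cast_natCast, map_natCast] at this
  have hred : s58r_red hM ⟨T, hT0⟩ = 0 := by
    apply m59gq_nodal_no_ptors HN p
    rw [← map_nsmul]
    have : p • (⟨T, hT0⟩ : s58r_E0 hM) = 0 := Subtype.ext (by
      rw [AddSubgroup.coe_nsmul]; exact hT)
    rw [this, _root_.map_zero]
  exact (s58r_red_eq_zero_iff hM ⟨T, hT0⟩).mp hred

end Concrete

section Lattice

variable {W : WeierstrassCurve ℤ} {p : ℕ} [Fact p.Prime] {ρW : GaloisRepAdic ℤ_[p]}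
  {π : ℕ → ρW.V →+ s58_E W} (A : ValuationSubring s58_Qb) [DecidableEq (ResidueField A)]

/-- the submodule of `T_p W` of the compatible systems of points of `E0` -/
def m59gq_L (hT : s58top_IsTate W p ρW π) : Submodule ℤ_[p] ρW.V where
  carrier := {v | ∀ n, π n v ∈ s58r_E0 (s58m_model W A)}
  add_mem' := fun {a b} ha hb n => by rw [map_add]; exact add_mem (ha n) (hb n)
  zero_mem' := fun n => by rw [_root_.map_zero]; exact zero_mem _
  smul_mem' := fun a v hv n => by rw [hT.smul]; exact nsmul_mem (hv n) _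

variable {A} (hT : s58top_IsTate W p ρW π)

theorem m59gq_mem_L {v : ρW.V} :
    v ∈ m59gq_L A hT ↔ ∀ n, π n v ∈ s58r_E0 (s58m_model W A) := Iff.rfl

/-- `L` is saturated -/
theorem m59gq_L_sat {v : ρW.V} (hv : (p : ℤ_[p]) • v ∈ m59gq_L A hT) : v ∈ m59gq_L A hT := by
  intro n
  have h := hv (n + 1)
  rw [s58top_pi_natCast_smul, hT.compat] at h
  exact h

/-- `L` is stable under the decomposition group -/
theorem m59gq_L_decomp {σ : s58_G} (hσ : σ ∈ A.decompositionSubgroup ℚ) {v : ρW.V}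
    (hv : v ∈ m59gq_L A hT) : ρW.ρ σ v ∈ m59gq_L A hT := by
  intro n
  rw [hT.gal]
  exact m59gq_decomp_smul_mem_E0 (s58m_model W A) hσ (hv n)

/-- the inertia group acts trivially on `T_p W / L` -/
theorem m59gq_L_inertia (hp2 : p ≠ 2) (hA : A.LiesOverPrime p) (hbad : (p : ℤ) ∣ W.Δ)
    (hc4 : ¬ (p : ℤ) ∣ W.c₄) {σ : s58_G} (hσ : σ ∈ A.inertiaSubgroupIn ℚ) (v : ρW.V) :
    ρW.ρ σ v - v ∈ m59gq_L A hT := by
  intro n
  rw [map_sub, hT.gal]
  exact m59gq_inertia_sub (Fact.out : p.Prime) hp2 hA hbad hc4 hσ _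

theorem m59gq_L_ne_top (hp2 : p ≠ 2) (hA : A.LiesOverPrime p) (hΔ0 : W.Δ ≠ 0)
    (hbad : (p : ℤ) ∣ W.Δ) (hc4 : ¬ (p : ℤ) ∣ W.c₄) : m59gq_L A hT ≠ ⊤ := by
  intro htop
  obtain ⟨T, hT1, hT2⟩ :=
    m59gq_exists_tors_not_E0 (A := A) (Fact.out : p.Prime) hp2 hA hΔ0 hbad hc4
  obtain ⟨v, hv⟩ := hT.surj 1 T (by rwa [pow_one])
  have hvL : v ∈ m59gq_L A hT := by rw [htop]; exact Submodule.mem_top
  exact hT2 (hv ▸ hvL 1)

theorem m59gq_L_ne_bot (hp2 : p ≠ 2) (hA : A.LiesOverPrime p) (hbad : (p : ℤ) ∣ W.Δ)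
    (hc4 : ¬ (p : ℤ) ∣ W.c₄)
    (hdet : ∃ σ ∈ A.inertiaSubgroupIn ℚ, LinearMap.det (ρW.ρ σ) ≠ 1) : m59gq_L A hT ≠ ⊥ := by
  intro hbot
  obtain ⟨σ, hσ, hd⟩ := hdet
  apply hd
  have h1 : ρW.ρ σ = 1 := LinearMap.ext fun v => by
    have h := m59gq_L_inertia hT hp2 hA hbad hc4 hσ v
    rw [hbot, Submodule.mem_bot, sub_eq_zero] at h
    exact h
  rw [h1, map_one]

end Lattice

end Fermat.Agent.M59
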