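/-
M59 / box [G5], cell (G5-ord) (helper6), part 6.  Prefix `m59gq_`.  Mathlib only.

A SATURATED PROPER NONZERO SUBMODULE OF A FREE MODULE OF RANK 2 OVER A DVR IS A LINE SPANNED BY
THE FIRST VECTOR OF A BASIS (`m59gq_exists_basis`).
-/
import Mathlib

set_option autoImplicit false

namespace Fermat.Agent.M59

open IsLocalRing

section Rank

variable {R V : Type*} [CommRing R] [IsDomain R] [IsDiscreteValuationRing R] [AddCommGroup V]
  [Module R V]

omit [IsDomain R] [IsDiscreteValuationRing R] in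
/-- a vector with a unit first coordinate is the first vector of a basis -/
theorem m59gq_basis_of_unit (e : Module.Basis (Fin 2) R V) (b₀ : V)
    (hu : IsUnit (e.repr b₀ 0)) : ∃ b : Module.Basis (Fin 2) R V, b 0 = b₀ := by
  set f : V →ₗ[R] V := e.constr R ![b₀, e 1] with hf
  have hf0 : f (e 0) = b₀ := by rw [hf, Module.Basis.constr_basis]; rfl
  have hf1 : f (e 1) = e 1 := by rw [hf, Module.Basis.constr_basis]; rfl
  have hdet : IsUnit (LinearMap.toMatrix e e f).det := by
    rw [Matrix.det_fin_two]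
    simp only [LinearMap.toMatrix_apply, hf0, hf1, Module.Basis.repr_self, Finsupp.single_apply]
    simpa using hu
  refine ⟨e.map (LinearEquiv.ofIsUnitDet hdet), ?_⟩
  rw [Module.Basis.map_apply, LinearEquiv.ofIsUnitDet_apply, hf0]

theorem m59gq_exists_basis (e : Module.Basis (Fin 2) R V) {ϖ : R} (hϖ : Irreducible ϖ)
    (L : Submodule R V) (hsat : ∀ v, ϖ • v ∈ L → v ∈ L) (hbot : L ≠ ⊥) (htop : L ≠ ⊤) :
    ∃ b : Module.Basis (Fin 2) R V, L = R ∙ b 0 := by
  -- saturation for powers
  have hsatn : ∀ (n : ℕ) (v : V), ϖ ^ n • v ∈ L → v ∈ L := by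
    intro n
    induction n with
    | zero => intro v hv; simpa using hv
    | succ n ih =>
      intro v hv
      apply ih
      apply hsat
      rwa [smul_smul, ← pow_succ']
  have hmax : maximalIdeal R = Ideal.span {ϖ} :=
    (IsDiscreteValuationRing.irreducible_iff_uniformizer ϖ).mp hϖ
  -- a primitive vector of `L`
  obtain ⟨b₀, hb₀L, hb₀⟩ : ∃ b₀ ∈ L, ¬ ∃ w, b₀ = ϖ • w := by
    by_contra hcon
    push Not at hcon
    obtain ⟨v₀, hv₀L, hv₀⟩ := Submodule.exists_mem_ne_zero_of_ne_bot hbot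
    have key : ∀ n : ℕ, ∀ v ∈ L, ∃ w ∈ L, v = ϖ ^ n • w := by
      intro n
      induction n with
      | zero => intro v hv; exact ⟨v, hv, by simp⟩
      | succ n ih =>
        intro v hv
        obtain ⟨w, hw⟩ := hcon v hv
        have hwL : w ∈ L := hsat w (hw ▸ hv)
        obtain ⟨w', hw'L, hw'⟩ := ih w hwL
        exact ⟨w', hw'L, by rw [hw, hw', smul_smul, ← pow_succ']⟩
    apply hv₀
    apply e.repr.injective
    rw [map_zero]
    ext i
    rw [Finsupp.zero_apply]
    have hmem : e.repr v₀ i ∈ ⨅ n : ℕ, (Ideal.span {ϖ} : Ideal R) ^ n := by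
      rw [Ideal.mem_iInf]
      intro n
      obtain ⟨w, -, hw⟩ := key n v₀ hv₀L
      rw [Ideal.span_singleton_pow, Ideal.mem_span_singleton, hw, map_smul, Finsupp.smul_apply,
        smul_eq_mul]
      exact dvd_mul_right _ _
    rw [Ideal.iInf_pow_eq_bot_of_isLocalRing _ (by rw [← hmax]; exact Ideal.IsPrime.ne_top')] at hmem
    exact hmem
  -- some coordinate of `b₀` is a unit
  obtain ⟨i, hi⟩ : ∃ i, IsUnit (e.repr b₀ i) := by
    by_contra hcon
    push Not at hcon
    have hdiv : ∀ i, ∃ c : R, e.repr b₀ i = ϖ * c := by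
      intro i
      have : e.repr b₀ i ∈ maximalIdeal R := (mem_maximalIdeal _).mpr (hcon i)
      rw [hmax, Ideal.mem_span_singleton] at this
      exact this
    choose c hc using hdiv
    apply hb₀
    refine ⟨∑ i, c i • e i, ?_⟩
    rw [Finset.smul_sum]
    conv_lhs => rw [← e.sum_repr b₀]
    refine Finset.sum_congr rfl fun i _ => ?_
    rw [hc i, mul_smul]
  -- the basis
  obtain ⟨b, hb⟩ : ∃ b : Module.Basis (Fin 2) R V, b 0 = b₀ := by
    fin_cases i
    · exact m59gq_basis_of_unit e b₀ hi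
    · refine m59gq_basis_of_unit (e.reindex (Equiv.swap 0 1)) b₀ ?_
      rw [Module.Basis.repr_reindex_apply]
      simpa using hi
  refine ⟨b, le_antisymm (fun v hv => ?_) ?_⟩
  · -- `L ≤ R ∙ b 0`
    have hsum : v = b.repr v 0 • b 0 + b.repr v 1 • b 1 := by
      conv_lhs => rw [← b.sum_repr v, Fin.sum_univ_two]
    have hβ : b.repr v 1 = 0 := by
      by_contra hne
      obtain ⟨n, u, hu⟩ := IsDiscreteValuationRing.eq_unit_mul_pow_irreducible hne hϖ
      have h1 : b.repr v 1 • b 1 ∈ L := by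
        have : b.repr v 1 • b 1 = v - b.repr v 0 • b 0 := by
          rw [eq_sub_iff_add_eq, add_comm]; exact hsum.symm
        rw [this, hb]
        exact L.sub_mem hv (L.smul_mem _ hb₀L)
      have h2 : ϖ ^ n • b 1 ∈ L := by
        have : ϖ ^ n • b 1 = (↑u⁻¹ : R) • (b.repr v 1 • b 1) := by
          rw [hu, smul_smul, ← mul_assoc, Units.inv_mul, one_mul]
        rw [this]
        exact L.smul_mem _ h1
      have h3 : b 1 ∈ L := hsatn n _ h2
      apply htop
      rw [eq_top_iff]
      intro x _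
      rw [← b.sum_repr x, Fin.sum_univ_two]
      exact L.add_mem (L.smul_mem _ (hb ▸ hb₀L)) (L.smul_mem _ h3)
    rw [hsum, hβ, zero_smul, add_zero]
    exact Submodule.smul_mem _ _ (Submodule.mem_span_singleton_self _)
  · rw [Submodule.span_singleton_le_iff_mem, hb]
    exact hb₀L

end Rank

end Fermat.Agent.M59
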