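/-
M59 / box [G5], cell (G5-ord) (helper6), part 7 (final).  Prefix `m59gq_`.

SEAM 4 OF `M59/G5/Seams.lean`: for a semistable `W / ℤ`, `p` odd, `p ∣ Δ`, and a Tate datum
`(ρ_W, π)`, the representation `ρ_W ⊗_{ℤ_p} 𝒪` is ordinary at `p` (Prelude `IsOrdinaryAt`), given
that its determinant is the cyclotomic character (`m59gq_ord_of_det`).

The line is `L ⊗ 𝒪`, `L = {v | ∀ n, π n v ∈ E0}` (`Line.lean`): saturated, proper (a `p`-torsion
point outside `E0`), nonzero (inertia acts trivially on `T_p W / L` and `det = ε` is ramified at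
`p`), hence spanned by the first vector of a basis (`Rank.lean`); it is stable under the
decomposition group and inertia acts trivially on the quotient.
-/
import Mathlib
import Fermat.Agent.M59.G5.Seams
import Fermat.Agent.M59.G5.Seams2
import Fermat.Agent.M59.G5.OrdQ.Line
import Fermat.Agent.M59.G5.OrdQ.Rank
import Fermat.Agent.S44.ChiRam.Main

set_option autoImplicit false

open scoped TensorProduct

namespace Fermat.Agent.M59

open IsLocalRing Fermat.Agent.S58 Fermat.Agent.S44 Fermat.Agent.JT3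

/-- **base change of an ordinary line** -/
theorem m59gq_baseChange_ord {A B : Type} [CommRing A] [IsLocalRing A] [CommRing B]
    [IsLocalRing B] (φ : A →+* B) (hφ : IsLocalHom φ) (ρ : GaloisRepAdic A)
    (P : ValuationSubring (AlgebraicClosure ℚ)) (b : Module.Basis (Fin 2) A ρ.V)
    (hD : ∀ σ ∈ P.decompositionSubgroup ℚ, ∀ v ∈ (A ∙ b 0), ρ.ρ σ v ∈ (A ∙ b 0))
    (hI : ∀ σ ∈ P.inertiaSubgroupIn ℚ, ∀ v : ρ.V, ρ.ρ σ v - v ∈ (A ∙ b 0)) :
    ∃ L : Submodule B (ρ.baseChangeAlong φ hφ).V,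
      (∃ b' : Module.Basis (Fin 2) B (ρ.baseChangeAlong φ hφ).V, L = B ∙ b' 0) ∧
      (∀ σ ∈ P.decompositionSubgroup ℚ, ∀ v ∈ L, (ρ.baseChangeAlong φ hφ).ρ σ v ∈ L) ∧
      (∀ σ ∈ P.inertiaSubgroupIn ℚ, ∀ v : (ρ.baseChangeAlong φ hφ).V,
        (ρ.baseChangeAlong φ hφ).ρ σ v - v ∈ L) := by
  let _ : Algebra A B := φ.toAlgebra
  set b' : Module.Basis (Fin 2) B (B ⊗[A] ρ.V) := Algebra.TensorProduct.basis B b with hb'
  have hb'0 : b' 0 = (1 : B) ⊗ₜ[A] b 0 := Algebra.TensorProduct.basis_apply b 0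
  -- `c ⊗ (a • b 0) ∈ B ∙ b' 0`
  have hmem : ∀ (c : B) (v : ρ.V), v ∈ (A ∙ b 0) → c ⊗ₜ[A] v ∈ (B ∙ b' 0) := by
    intro c v hv
    obtain ⟨a, rfl⟩ := Submodule.mem_span_singleton.mp hv
    have e : c ⊗ₜ[A] (a • b 0) = (c * algebraMap A B a) • b' 0 := by
      rw [hb'0, TensorProduct.smul_tmul', smul_eq_mul, mul_one, TensorProduct.tmul_smul,
        ← algebraMap_smul B a (c ⊗ₜ[A] b 0), TensorProduct.smul_tmul', smul_eq_mul, mul_comm]
    rw [e]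
    exact Submodule.smul_mem _ _ (Submodule.mem_span_singleton_self _)
  refine ⟨B ∙ b' 0, ⟨b', rfl⟩, fun σ hσ v hv => ?_, fun σ hσ => ?_⟩
  · obtain ⟨c, rfl⟩ := Submodule.mem_span_singleton.mp hv
    rw [map_smul]
    refine Submodule.smul_mem _ _ ?_
    show (ρ.ρ σ).baseChange B (b' 0) ∈ _
    rw [hb'0, LinearMap.baseChange_tmul, ← hb'0]
    exact hmem 1 _ (hD σ hσ _ (Submodule.mem_span_singleton_self _))
  · intro (v : B ⊗[A] ρ.V)
    show (ρ.ρ σ).baseChange B v - v ∈ B ∙ b' 0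
    induction v using TensorProduct.induction_on with
    | zero => rw [LinearMap.map_zero, sub_zero]; exact Submodule.zero_mem _
    | tmul c w =>
      rw [LinearMap.baseChange_tmul, ← TensorProduct.tmul_sub]
      exact hmem c _ (hI σ hσ w)
    | add x y hx hy =>
      rw [LinearMap.map_add, add_sub_add_comm]
      exact Submodule.add_mem _ hx hy

/-- a rational integer prime to `p` is not in `p 𝒪` -/
theorem m59gq_not_mem_span {𝒪 : Type} [CommRing 𝒪] [IsLocalRing 𝒪] {p : ℕ} (hp : p.Prime)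
    (hp𝒪 : (p : 𝒪) ∈ maximalIdeal 𝒪) {z : ℤ} (hz : ¬ (p : ℤ) ∣ z) :
    (z : 𝒪) ∉ Ideal.span {(p : 𝒪)} := by
  intro hmem
  have hzm : (z : 𝒪) ∈ maximalIdeal 𝒪 :=
    (Ideal.span_singleton_le_iff_mem (I := maximalIdeal 𝒪)).mpr hp𝒪 hmem
  have hcop : IsCoprime z (p : ℤ) :=
    ((Nat.prime_iff_prime_int.mp hp).coprime_iff_not_dvd.mpr hz).symm
  obtain ⟨x, y, hxy⟩ := hcop
  have h1 : ((x * z + y * (p : ℤ) : ℤ) : 𝒪) = 1 := by rw [hxy, Int.cast_one]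
  have h2 : (1 : 𝒪) ∈ maximalIdeal 𝒪 := by
    rw [← h1]
    push_cast
    exact Ideal.add_mem _ (Ideal.mul_mem_left _ _ hzm) (Ideal.mul_mem_left _ _ hp𝒪)
  exact (Ideal.ne_top_iff_one _).mp (maximalIdeal.isMaximal 𝒪).ne_top h2

/-- **(G5-ord)**, with the determinant as a hypothesis -/
theorem m59gq_ord_of_det (p : ℕ) [Fact p.Prime] (hp2 : p ≠ 2) (W : WeierstrassCurve ℤ)
    (hΔ : W.Δ ≠ 0) (hss : W.IsSemistableModel) (hbad : ¬ W.IsGoodPrimeFor p)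
    (ρW : GaloisRepAdic ℤ_[p]) (π : ℕ → ρW.V →+ s58_E W) (hT : s58top_IsTate W p ρW π)
    (𝒪 : Type) [CommRing 𝒪] [IsDomain 𝒪] [IsDiscreteValuationRing 𝒪]
    [IsAdicComplete (maximalIdeal 𝒪) 𝒪] (hp : (p : 𝒪) ∈ maximalIdeal 𝒪)
    (hdet : (m59g_rho p 𝒪 hp ρW).DetIsCyclotomic p) :
    (m59g_rho p 𝒪 hp ρW).IsOrdinaryAt p := by
  classical
  intro P hP
  have hpp : p.Prime := Fact.out
  have hbad' : (p : ℤ) ∣ W.Δ := not_not.mp hbad
  have hc4 : ¬ (p : ℤ) ∣ W.c₄ := hss p hpp hbad'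
  -- the determinant of `ρ_W` is nontrivial on the inertia group
  have hdetW : ∃ σ ∈ P.inertiaSubgroupIn ℚ, LinearMap.det (ρW.ρ σ) ≠ 1 := by
    have : NeZero ((p : ℕ) : s58_Qb) := ⟨by exact_mod_cast hpp.ne_zero⟩
    obtain ⟨ζ, hζ⟩ := HasEnoughRootsOfUnity.exists_primitiveRoot s58_Qb p
    obtain ⟨σ₀, hσ₀, k₀, hk₀, hne⟩ := s44c_chiRam p hp2 P hP ζ hζ
    refine ⟨σ₀, hσ₀, fun h1 => ?_⟩
    have hμ : ∀ μ : AlgebraicClosure ℚ, μ ^ p ^ 1 = 1 → σ₀ μ = μ ^ k₀ := by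
      intro μ hμ
      rw [pow_one] at hμ
      obtain ⟨i, -, rfl⟩ := hζ.eq_pow_of_pow_eq_one hμ
      rw [map_pow, hk₀, ← pow_mul, ← pow_mul, mul_comm]
    have h2 := hdet.2 1 σ₀ k₀ hμ
    rw [m59g_rho, s58top_baseChange_det, h1, map_one, pow_one] at h2
    have h3 : ((1 - (k₀ : ℤ) : ℤ) : 𝒪) ∈ Ideal.span {(p : 𝒪)} := by
      push_cast
      exact h2
    refine m59gq_not_mem_span hpp hp (fun hdvd => hne ?_) h3
    exact Int.modEq_iff_dvd.mpr hdvd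
  -- the line
  have hsat := fun v => m59gq_L_sat (A := P) hT (v := v)
  have hnb := m59gq_L_ne_bot (A := P) hT hp2 hP hbad' hc4 hdetW
  have hnt := m59gq_L_ne_top (A := P) hT hp2 hP hΔ hbad' hc4
  obtain ⟨b, hb⟩ := m59gq_exists_basis (Module.finBasisOfFinrankEq ℤ_[p] ρW.V ρW.finrank_eq)
    PadicInt.irreducible_p (m59gq_L P hT) hsat hnb hnt
  refine m59gq_baseChange_ord _ _ ρW P b (fun σ hσ v hv => ?_) (fun σ hσ v => ?_)
  · rw [← hb] at hv ⊢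
    exact m59gq_L_decomp hT hσ hv
  · rw [← hb]
    exact m59gq_L_inertia hT hp2 hP hbad' hc4 hσ v

/-- **the seam (G5-ord)**, issue 2 (`M59/G5/Seams2.lean`). -/
theorem m59gq_ord2 : m59g_Ord2_stmt :=
  fun p _ hp2 W hΔ hss hb ρW π hT 𝒪 _ _ _ _ _ _ hp hdet =>
    m59gq_ord_of_det p hp2 W hΔ hss hb ρW π hT 𝒪 hp hdet

end Fermat.Agent.M59
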