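/-
M59 / box [G5] (helper6): THE BOX [G5] IS CLOSED.

With (G5-ord) `m59gq_ord2` (this directory), (G5-flat) `m59gs_flat2` (helper23/helper29),
(hTW) `m59tw_tw2z` (helper23), [COEFF] `m59g_coeff2` (helper29), (G5-away/split/nonEis) (helper6),
the seam `m59g_G5z_stmt` of `M59/G5/Seams2.lean` (= `m59e_G5z_stmt` of `M59/Top/EngZ.lean`) and the
seam `m59e_G5_stmt` of `M59/Top/EngSeams.lean` hold unconditionally.  Prefix `m59gq_`.
-/
import Mathlib
import Fermat.Agent.M59.G5.OrdQ.Main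
import Fermat.Agent.M59.HTW.Wire2

set_option autoImplicit false

namespace Fermat.Agent.M59

/-- **[G5], issue 2, CLOSED.** -/
theorem m59gq_G5z : m59g_G5z_stmt := m59tw_G5z_of_ord m59gq_ord2

/-- **[G5], issue 1, CLOSED.** -/
theorem m59gq_G5 : m59e_G5_stmt := m59tw_G5_of_ord m59gq_ord2

end Fermat.Agent.M59
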